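import Mathlib
import Fermat.Prelude.Def_EllipticCurve_FrobeniusTrace
import Fermat.Prelude.Def_GaloisRep_ModThreeCyclotomic
import Fermat.Prelude.Def_GaloisRep_Residual

set_option autoImplicit false

/-!
# The input of the Langlands-Tunnell argument

A surjective representation onto `GL₂(𝔽₃)` with cyclotomic determinant, supersingular at `3` and
unipotent on inertia elsewhere, together with the fields `K` and `F` cut out by it.
-/

noncomputable section

open NumberField IsDedekindDomain Matrix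

namespace FermatAgent.LT

local notation "Qb" => AlgebraicClosure ℚ
local notation "GQ" => AlgebraicClosure ℚ ≃ₐ[ℚ] AlgebraicClosure ℚ

/-- The defining condition of the quaternion subgroup of `GL₂(𝔽₃)`. -/
def IsQ8 (M : Matrix (Fin 2) (Fin 2) (ZMod 3)) : Prop :=
  M.det = 1 ∧ (M.trace = 0 ∨ M = 1 ∨ M = -1)

theorem IsQ8.mul_traceZero : ∀ a b c a' b' c' : ZMod 3,
    -(a * a) - b * c = 1 → -(a' * a') - b' * c' = 1 →
    (a * a' + b * c') + (c * b' + a * a') = 0 ∨
      (a * a' + b * c' = 1 ∧ a * b' - b * a' = 0 ∧ c * a' - a * c' = 0 ∧ c * b' + a * a' = 1) ∨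
      (a * a' + b * c' = -1 ∧ a * b' - b * a' = 0 ∧ c * a' - a * c' = 0 ∧ c * b' + a * a' = -1) := by
  decide

theorem IsQ8.mul {M N : Matrix (Fin 2) (Fin 2) (ZMod 3)} (hM : IsQ8 M) (hN : IsQ8 N) :
    IsQ8 (M * N) := by
  refine ⟨by rw [det_mul, hM.1, hN.1, one_mul], ?_⟩
  obtain ⟨hMd, hM | rfl | rfl⟩ := hM
  · obtain ⟨hNd, hN | rfl | rfl⟩ := hN
    · rw [trace_fin_two] at hM hN
      have e1 : M 1 1 = -M 0 0 := eq_neg_of_add_eq_zero_right hM
      have e2 : N 1 1 = -N 0 0 := eq_neg_of_add_eq_zero_right hN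
      rw [det_fin_two, e1, mul_neg] at hMd
      rw [det_fin_two, e2, mul_neg] at hNd
      simp only [trace_fin_two, ← Matrix.ext_iff, Fin.forall_fin_two, Matrix.mul_apply,
        Fin.sum_univ_two, Matrix.neg_apply, Matrix.one_apply, e1, e2, mul_neg, neg_mul, neg_neg,
        zero_ne_one, one_ne_zero, if_false, if_true, ← sub_eq_add_neg, neg_zero,
        sub_neg_eq_add]
      rcases IsQ8.mul_traceZero _ _ _ _ _ _ hMd hNd with h | ⟨h1, h2, h3, h4⟩ | ⟨h1, h2, h3, h4⟩
      · exact Or.inl h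
      · exact Or.inr (Or.inl ⟨⟨h1, h2⟩, h3, h4⟩)
      · exact Or.inr (Or.inr ⟨⟨h1, h2⟩, h3, h4⟩)
    · rw [mul_one]; exact Or.inl hM
    · rw [mul_neg, mul_one, trace_neg, hM, neg_zero]; exact Or.inl rfl
  · rw [one_mul]; exact hN.2
  · rw [neg_one_mul, trace_neg, neg_eq_zero, neg_eq_iff_eq_neg, neg_inj]
    rcases hN.2 with h | h | h
    · exact Or.inl h
    · exact Or.inr (Or.inr h)
    · exact Or.inr (Or.inl h)

theorem IsQ8.adjugate {M : Matrix (Fin 2) (Fin 2) (ZMod 3)} (hM : IsQ8 M) : IsQ8 M.adjugate := by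
  refine ⟨by rw [det_adjugate, hM.1, one_pow], ?_⟩
  rcases hM.2 with h | h | h
  · refine Or.inl ?_
    rw [adjugate_fin_two, trace_fin_two] at *
    simpa [add_comm] using h
  · exact Or.inr (Or.inl (by rw [h, adjugate_one]))
  · refine Or.inr (Or.inr ?_)
    rw [h, adjugate_fin_two]
    ext i j
    fin_cases i <;> fin_cases j <;> simp

/-- The quaternion subgroup of `GL₂(𝔽₃)`. -/
def quaternionSubgroup : Subgroup (GL (Fin 2) (ZMod 3)) where
  carrier := {g | IsQ8 (g : Matrix (Fin 2) (Fin 2) (ZMod 3))}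
  one_mem' := ⟨det_one, Or.inr (Or.inl rfl)⟩
  mul_mem' := fun {g h} hg hh => IsQ8.mul hg hh
  inv_mem' := fun {g} hg => by
    show IsQ8 _
    rw [Matrix.coe_units_inv, Matrix.inv_def, hg.1, Ring.inverse_one, one_smul]
    exact hg.adjugate

/-- The trace of the two-dimensional representation of the quaternion group, extended by zero. -/
def q8Trace (g : GL (Fin 2) (ZMod 3)) : ℤ :=
  if g = 1 then 2 else if g = -1 then -2 else 0

/-- `σ` is a Frobenius element of the prime `v` of the subfield `L`. -/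
def IsFrobOver {L : IntermediateField ℚ Qb} [NumberField L] (v : HeightOneSpectrum (𝓞 L))
    (σ : GQ) : Prop :=
  σ ∈ L.fixingSubgroup ∧ ∃ A : ValuationSubring Qb,
    (∀ x : 𝓞 L, x ∈ v.asIdeal ↔ ((x : L) : Qb) ∈ A.nonunits) ∧
      A.IsFrobeniusAt σ (Ideal.absNorm v.asIdeal)

/-- The input of the argument. -/
structure Setup where
  /-- the representation -/
  ρ : GQ →* GL (Fin 2) (ZMod 3)
  finiteLevel : GaloisFactorsThroughFiniteLevel ρ
  surjective : Function.Surjective ρ
  det_eq : ∀ σ, Matrix.GeneralLinearGroup.det (ρ σ) = WeierstrassCurve.modThreeCyclotomicChar σ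
  /-- the product of the ramified primes other than `3` -/
  m : ℕ
  m_squarefree : Squarefree m
  three_not_dvd : ¬ 3 ∣ m
  unramified : ∀ q : ℕ, q.Prime → ¬ q ∣ 3 * m → ∀ A : ValuationSubring Qb, A.LiesOverPrime q →
    ∀ σ ∈ A.inertiaSubgroupIn ℚ, ρ σ = 1
  ramified : ∀ q : ℕ, q.Prime → q ∣ m → ∀ A : ValuationSubring Qb, A.LiesOverPrime q →
    ∃ σ ∈ A.inertiaSubgroupIn ℚ, ρ σ ≠ 1
  unipotent : ∀ q : ℕ, q.Prime → q ∣ m → ∀ A : ValuationSubring Qb, A.LiesOverPrime q →
    ∀ σ ∈ A.inertiaSubgroupIn ℚ, ρ σ ^ 3 = 1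
  supersingular : ∀ A : ValuationSubring Qb, A.LiesOverPrime 3 →
    ∃ σ ∈ A.inertiaSubgroupIn ℚ, orderOf (ρ σ) = 8

namespace Setup

variable (S : Setup)

theorem finiteDimensional_fixedField (H : Subgroup (GL (Fin 2) (ZMod 3))) :
    FiniteDimensional ℚ (IntermediateField.fixedField (H.comap S.ρ)) := by
  obtain ⟨L, hL, h1⟩ := S.finiteLevel
  have hle : IntermediateField.fixedField (H.comap S.ρ) ≤ L := by
    have : IsAlgClosure ℚ Qb := AlgebraicClosure.instIsAlgClosure ℚ
    have : IsGalois ℚ Qb := IsAlgClosure.isGalois ℚ Qb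
    rw [← InfiniteGalois.fixedField_fixingSubgroup L]
    refine IntermediateField.fixedField_antitone fun σ hσ => ?_
    rw [Subgroup.mem_comap, h1 σ (fun x hx => (IntermediateField.mem_fixingSubgroup_iff L σ).mp hσ x hx)]
    exact H.one_mem
  exact FiniteDimensional.of_injective (IntermediateField.inclusion hle).toLinearMap
    (IntermediateField.inclusion hle).injective

/-- The quadratic field cut out by the determinant. -/
def K : IntermediateField ℚ Qb :=
  IntermediateField.fixedField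
    ((Matrix.GeneralLinearGroup.det (n := Fin 2) (R := ZMod 3)).ker.comap S.ρ)

/-- The sextic field cut out by the quaternion subgroup. -/
def F : IntermediateField ℚ Qb := IntermediateField.fixedField (quaternionSubgroup.comap S.ρ)

instance : NumberField S.K where
  to_finiteDimensional := S.finiteDimensional_fixedField _

instance : NumberField S.F where
  to_finiteDimensional := S.finiteDimensional_fixedField _

theorem K_le_F : S.K ≤ S.F :=
  IntermediateField.fixedField_antitone (Subgroup.comap_mono fun _ hg =>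
    MonoidHom.mem_ker.mpr (Units.ext hg.1))

/-- `p` splits completely in `F`. -/
def SplitsInF (p : ℕ) : Prop :=
  ∀ A : ValuationSubring Qb, A.LiesOverPrime p → ∀ σ : GQ, A.IsFrobeniusAt σ p →
    S.ρ σ ∈ quaternionSubgroup

/-- The radical of `(3m)` in `L`: the product of the places of `L` above `3m`. -/
def levelIdeal (L : IntermediateField ℚ Qb) [NumberField L] : Ideal (𝓞 L) :=
  (Ideal.span {((3 * S.m : ℕ) : 𝓞 L)}).radical

end Setup

end FermatAgent.LT
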