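import Mathlib
import Fermat.Agent.LT.Base.H3
import Fermat.Agent.LT.Setup

set_option autoImplicit false

/-!
# The Bianchi form over the Eisenstein integers

This is the interface between the cubic descent (which produces the form) and the quadratic
descent (period and theta lift).
-/

noncomputable section

open MeasureTheory
open scoped ComplexConjugate MatrixGroups

namespace FermatAgent.LT

/-- `(-1 + i√3)/2`. -/
def omega : ℂ := ⟨-1 / 2, Real.sqrt 3 / 2⟩

/-- The Eisenstein integers in `ℂ`. -/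
def EisInt : Subring ℂ := Subring.closure {omega}

/-- The ideal of `n` in the Eisenstein integers. -/
def eisIdeal (n : ℕ) : Ideal EisInt := Ideal.span {(n : EisInt)}

/-- Reduction of matrices modulo `n`. -/
def redMat (n : ℕ) : GL (Fin 2) EisInt →* GL (Fin 2) (EisInt ⧸ eisIdeal n) :=
  Matrix.GeneralLinearGroup.map (Ideal.Quotient.mk (eisIdeal n))

/-- A diagonal matrix `diag (d, 1)`. -/
def diagMat {R : Type*} [CommRing R] (d : Rˣ) : GL (Fin 2) R where
  val := !![(d : R), 0; 0, 1]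
  inv := !![((d⁻¹ : Rˣ) : R), 0; 0, 1]
  val_inv := by ext i j; fin_cases i <;> fin_cases j <;> simp [Matrix.mul_apply, Fin.sum_univ_two]
  inv_val := by ext i j; fin_cases i <;> fin_cases j <;> simp [Matrix.mul_apply, Fin.sum_univ_two]

/-- The map from the rational residue ring to the Eisenstein residue ring. -/
def zmodToEis (n : ℕ) : ZMod n →+* EisInt ⧸ eisIdeal n :=
  ((Ideal.Quotient.lift (Ideal.span {(n : ℤ)}) (Int.castRingHom (EisInt ⧸ eisIdeal n)) fun a ha => by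
      obtain ⟨b, rfl⟩ := Ideal.mem_span_singleton'.mp ha
      rw [map_mul, map_natCast]
      rw [show (n : EisInt ⧸ eisIdeal n) = Ideal.Quotient.mk (eisIdeal n) (n : EisInt) from
        (map_natCast _ n).symm, (Ideal.Quotient.eq_zero_iff_mem (I := eisIdeal n) (a := (n : EisInt))).mpr (Ideal.mem_span_singleton_self _),
        mul_zero]).comp
    (Int.quotientSpanNatEquivZMod n).symm.toRingHom)

/-- Rational residue matrices inside the Eisenstein ones. -/
def zmodMat (n : ℕ) : GL (Fin 2) (ZMod n) →* GL (Fin 2) (EisInt ⧸ eisIdeal n) :=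
  Matrix.GeneralLinearGroup.map (zmodToEis n)

/-- An Eisenstein matrix as a complex matrix. -/
def cplxMat : GL (Fin 2) EisInt →* GL (Fin 2) ℂ := Matrix.GeneralLinearGroup.map EisInt.subtype

/-- The representatives `(1 b; 0 π)` and `(π 0; 0 1)` of the Hecke operator at `π`. -/
def heckeRep (π : EisInt) (hπ : (π : ℂ) ≠ 0) (b : Option EisInt) : GL (Fin 2) ℂ :=
  match b with
  | some b => Matrix.GeneralLinearGroup.mkOfDetNeZero !![1, (b : ℂ); 0, (π : ℂ)]
      (by simpa [Matrix.det_fin_two] using hπ)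
  | none => Matrix.GeneralLinearGroup.mkOfDetNeZero !![(π : ℂ), 0; 0, 1]
      (by simpa [Matrix.det_fin_two] using hπ)

/-- Their reductions modulo `n`, for `u` the class of `π`. -/
def heckeRepMod (n : ℕ) (u : (EisInt ⧸ eisIdeal n)ˣ) (b : Option EisInt) :
    GL (Fin 2) (EisInt ⧸ eisIdeal n) :=
  match b with
  | some b => ⟨!![1, Ideal.Quotient.mk _ b; 0, (u : EisInt ⧸ eisIdeal n)],
      !![1, -(Ideal.Quotient.mk _ b * ((u⁻¹ : (EisInt ⧸ eisIdeal n)ˣ) : EisInt ⧸ eisIdeal n));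
        0, ((u⁻¹ : (EisInt ⧸ eisIdeal n)ˣ) : EisInt ⧸ eisIdeal n)],
      by ext i j; fin_cases i <;> fin_cases j <;> simp [Matrix.mul_apply, Fin.sum_univ_two],
      by ext i j; fin_cases i <;> fin_cases j <;> simp [Matrix.mul_apply, Fin.sum_univ_two, mul_assoc]⟩
  | none => diagMat u

/-- The output of the cubic descent in classical language: a cusp form on
`H3 × GL₂(O/3m)` for `O` the Eisenstein integers, with multiplicative coefficients. -/
structure BianchiForm (S : Setup) where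
  /-- the form -/
  φ : H3 → GL (Fin 2) (EisInt ⧸ eisIdeal (3 * S.m)) → ℂ
  invariant : ∀ (γ : GL (Fin 2) EisInt) (P : H3) h,
    φ (cplxMat γ • P) (redMat _ γ * h) = φ P h
  scalar : ∀ (a : (EisInt ⧸ eisIdeal (3 * S.m))ˣ) P h,
    φ P (h * Matrix.GeneralLinearGroup.scalar (Fin 2) a) = φ P h
  continuous : ∀ h, Continuous fun P => φ P h
  bounded : ∃ C, ∀ P h, ‖φ P h‖ ≤ C
  decay : ∀ h, ∃ C, ∀ P : H3, 1 ≤ P.t → ‖φ P h‖ ≤ C / P.t
  sph0 : ∀ h, H3.IsSph0 fun P => φ P h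
  cuspidal : ∀ (t : ℝ) (ht : 0 < t) h,
    ∫ xy in Set.Icc (0 : ℝ) 1 ×ˢ Set.Icc (0 : ℝ) 1,
      φ ⟨((3 * S.m : ℕ) : ℂ) * (xy.1 + xy.2 * omega), t, ht⟩ h = 0
  /-- the coefficients -/
  c : EisInt → ℂ
  expansion : ∀ (d : (EisInt ⧸ eisIdeal (3 * S.m))ˣ) (P : H3),
    HasSum (fun ν : EisInt => c ν *
      H3.wave ((ν : ℂ) / (((3 * S.m : ℕ) : ℂ) * (1 + 2 * omega))) P) (φ P (diagMat d))
  c_zero : c 0 = 0
  c_one : c 1 = 1
  c_real : ∀ ν, conj (c ν) = c ν
  c_unit : ∀ (u : EisIntˣ) ν, c ((u : EisInt) * ν) = c ν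
  c_support : ∀ ν : EisInt, ¬ IsCoprime ν ((3 * S.m : ℕ) : EisInt) → c ν = 0
  c_mul : ∀ μ ν : EisInt, IsCoprime μ ν → c (μ * ν) = c μ * c ν
  c_prime_pow : ∀ (π : EisInt) (k : ℕ), Prime π → IsCoprime π ((3 * S.m : ℕ) : EisInt) →
    c (π ^ (k + 2)) = c π * c (π ^ (k + 1)) - c (π ^ k)
  /-- the finitely many rational primes at which the eigenvalue is not prescribed -/
  exc : Finset ℕ
  c_split : ∀ (π : EisInt) (p : ℕ), Prime π → p.Prime → p ∉ exc → ¬ p ∣ 3 * S.m →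
    π ∣ (p : EisInt) → Complex.normSq (π : ℂ) = p → S.SplitsInF p →
    ∀ A : ValuationSubring (AlgebraicClosure ℚ), A.LiesOverPrime p → ∀ σ, A.IsFrobeniusAt σ p →
      c π = (q8Trace (S.ρ σ) : ℂ)
  c_inert : ∀ p : ℕ, p.Prime → p ∉ exc → ¬ p ∣ 3 * S.m → p % 3 = 2 →
    ∀ A : ValuationSubring (AlgebraicClosure ℚ), A.LiesOverPrime p → ∀ σ, A.IsFrobeniusAt σ p →
      c (p : EisInt) = (q8Trace (S.ρ σ ^ 2) : ℂ)
  c_le_two : ∀ (π : EisInt) (p : ℕ), Prime π → p.Prime → p ∉ exc → ¬ p ∣ 3 * S.m →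
    π ∣ (p : EisInt) → ‖c π‖ ≤ 2
  hecke : ∀ (π : EisInt) (hπ : (π : ℂ) ≠ 0) (p : ℕ) (u : (EisInt ⧸ eisIdeal (3 * S.m))ˣ),
    Prime π → p.Prime → Complex.normSq (π : ℂ) = p →
    (u : EisInt ⧸ eisIdeal (3 * S.m)) = Ideal.Quotient.mk _ π →
    ∀ P h, (∑ b ∈ (Finset.range p).image (fun k : ℕ => some (k : EisInt)) ∪ {none},
      φ (heckeRep π hπ b • P) (heckeRepMod (3 * S.m) u b * h)) =
        (Real.sqrt p : ℂ) * c π * φ P h

namespace BianchiForm

variable {S : Setup} (B : BianchiForm S)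

/-- The period over the rational modular curves. -/
def period [NeZero S.m] : ℂ :=
  haveI : NeZero (3 * S.m) := ⟨mul_ne_zero three_ne_zero (NeZero.ne S.m)⟩
  ∫ τ in ModularGroup.fd, ∑ h : GL (Fin 2) (ZMod (3 * S.m)),
    B.φ (H3.ofUHP τ) (zmodMat (3 * S.m) h)

end BianchiForm

end FermatAgent.LT
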