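import Fermat.Agent.LT.Descent.Main
import Fermat.Agent.LT.Period.Main
import Fermat.Agent.LT.Galois.Main

set_option autoImplicit false

/-!
# Langlands-Tunnell for supersingular residual representations, assembled
-/

noncomputable section

namespace FermatAgent.LT

theorem Setup.isModular (S : Setup) : S.IsModular := by
  have : NeZero S.m := ⟨S.m_squarefree.ne_zero⟩
  obtain ⟨Ψ, T, φ, hΨ, hφ⟩ := exists_descended S
  obtain ⟨B⟩ := exists_bianchiForm hΨ hφ
  exact isModular_of_weightOne (exists_weightOne B B.period_ne_zero)

end FermatAgent.LT
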